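import Fermat.Agent.CFT.TWPrimes.Irred

/-!
# Cocycles in the twisted adjoint representation and their trace functions
-/

set_option autoImplicit false

noncomputable section

namespace Fermat.Agent.CFT.TWPrimes

open Matrix

variable {G : Type*} [Group G] {k : Type*} [Field k]

local notation "M₂" => Matrix (Fin 2) (Fin 2) k

/-- The twisted adjoint action on two by two matrices. -/
def ad (r : G →* M₂) (g : G) : M₂ →ₗ[k] M₂ :=
  (r g).det • ((LinearMap.mulLeft k (r g)).comp (LinearMap.mulRight k (r g⁻¹)))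

variable {r : G →* Matrix (Fin 2) (Fin 2) k}

theorem ad_apply (g : G) (X : M₂) : ad r g X = (r g).det • (r g * X * r g⁻¹) := by
  simp [ad, mul_assoc]

theorem ad_one (X : M₂) : ad r (1 : G) X = X := by simp [ad_apply]

theorem ad_mul (g h : G) (X : M₂) : ad r (g * h) X = ad r g (ad r h X) := by
  simp only [ad_apply, map_mul, _root_.mul_inv_rev, Matrix.det_mul, mul_smul_comm, smul_mul_assoc,
    smul_smul, mul_assoc]

theorem trace_ad (g : G) (X : M₂) : (ad r g X).trace = (r g).det * X.trace := by
  rw [ad_apply, Matrix.trace_smul, trace_conj, smul_eq_mul]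

theorem ad_congr {g h : G} (e : r g = r h) (X : M₂) : ad r g X = ad r h X := by
  have e' : r g⁻¹ = r h⁻¹ := by
    calc r g⁻¹ = r g⁻¹ * (r h * r h⁻¹) := by rw [mul_rinv, mul_one]
      _ = r h⁻¹ := by rw [← e, ← mul_assoc, rinv_mul, one_mul]
  rw [ad_apply, ad_apply, e, e']

theorem ad_of_eq_one {g : G} (e : r g = 1) (X : M₂) : ad r g X = X := by
  rw [ad_congr (h := 1) (by rw [e, map_one]), ad_one]

/-- Cocycles with values in trace zero matrices, for the twisted adjoint action. -/
structure IsCocycle (r : G →* M₂) (b : G → M₂) : Prop where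
  trace : ∀ g, (b g).trace = 0
  map_mul : ∀ g h, b (g * h) = ad r g (b h) + b g

/-- The coboundary of a matrix. -/
def cobd (r : G →* M₂) (X : M₂) (g : G) : M₂ := ad r g X - X

theorem isCocycle_cobd {X : M₂} (hX : X.trace = 0) : IsCocycle r (cobd r X) where
  trace g := by rw [cobd, Matrix.trace_sub, trace_ad, hX, mul_zero, sub_zero]
  map_mul g h := by
    simp only [cobd, ad_mul, map_sub]
    abel

theorem IsCocycle.sub {b c : G → M₂} (hb : IsCocycle r b) (hc : IsCocycle r c) :
    IsCocycle r (fun g => b g - c g) where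
  trace g := by rw [Matrix.trace_sub, hb.trace, hc.trace, sub_zero]
  map_mul g h := by
    rw [hb.map_mul, hc.map_mul, map_sub]
    abel

theorem IsCocycle.sum {ι : Type*} (F : Finset ι) {b : ι → G → M₂} (c : ι → k)
    (hb : ∀ i ∈ F, IsCocycle r (b i)) : IsCocycle r (fun g => ∑ i ∈ F, c i • b i g) where
  trace g := by
    rw [Matrix.trace_sum]
    exact Finset.sum_eq_zero fun i hi => by rw [Matrix.trace_smul, (hb i hi).trace, smul_zero]
  map_mul g h := by
    rw [map_sum, ← Finset.sum_add_distrib]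
    exact Finset.sum_congr rfl fun i hi => by rw [(hb i hi).map_mul, map_smul, smul_add]

/-- The trace function of a cocycle. -/
def phi (r : G →* M₂) (b : G → M₂) (g : G) : k := (b g * r g).trace

variable {b : G → Matrix (Fin 2) (Fin 2) k}

theorem IsCocycle.map_one (hb : IsCocycle r b) : b 1 = 0 := by
  have h := hb.map_mul 1 1
  rw [ad_one, mul_one, left_eq_add] at h
  exact h

theorem IsCocycle.map_inv (hb : IsCocycle r b) (g : G) : b g⁻¹ = -ad r g⁻¹ (b g) := by
  have h := hb.map_mul g⁻¹ g
  rw [inv_mul_cancel, hb.map_one] at h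
  exact eq_neg_of_add_eq_zero_right h.symm

theorem phi_cobd {X : M₂} {g : G} (hg : (r g).det = 1) : phi r (cobd r X) g = 0 := by
  rw [phi, cobd, ad_apply, hg, one_smul, sub_mul, Matrix.trace_sub, mul_assoc, rinv_mul, mul_one,
    Matrix.trace_mul_comm, sub_self]

theorem IsCocycle.phi_mul (hb : IsCocycle r b) {g : G} (hg : (r g).det = 1) (h : G) :
    phi r b (g * h) = (b g * (r g * r h)).trace + (r g * b h * r h).trace := by
  rw [phi, hb.map_mul, ad_apply, hg, one_smul, _root_.map_mul, add_mul, Matrix.trace_add,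
    add_comm]
  congr 1
  rw [mul_assoc (r g * b h), ← mul_assoc (r g⁻¹), rinv_mul, one_mul]

theorem phi_mul_of_scalar (hb : IsCocycle r b) {u z : G} (hz : b z = 0) {c : k}
    (hzr : r z = c • (1 : M₂)) : phi r b (u * z) = c * phi r b u := by
  rw [phi, phi, hb.map_mul, hz, map_zero, zero_add, _root_.map_mul, hzr, mul_smul_comm, mul_one,
    mul_smul_comm, Matrix.trace_smul, smul_eq_mul]

theorem trace_add_trace_inv {g : G} (hg : (r g).det = 1) (h : G) :
    (r (g * h)).trace + (r (g⁻¹ * h)).trace = (r g).trace * (r h).trace := by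
  have h1 : r g + r g⁻¹ = (r g).trace • (1 : M₂) := by
    have e := congrArg (fun Z => Z * r g⁻¹) (mul_self_eq (r g))
    simp only [sub_mul, smul_mul_assoc, one_mul, mul_assoc, mul_rinv, mul_one, hg, one_smul] at e
    exact eq_sub_iff_add_eq.mp e
  rw [_root_.map_mul, _root_.map_mul, ← Matrix.trace_add, ← add_mul, h1, smul_mul_assoc, one_mul,
    Matrix.trace_smul, smul_eq_mul]

theorem IsCocycle.phi_add_phi_inv (hb : IsCocycle r b) {g : G} (hg : (r g).det = 1) (h : G) :
    phi r b (g * h) + phi r b (g⁻¹ * h) =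
      phi r b g * (r h).trace + (r g).trace * phi r b h := by
  have hg' : (r g⁻¹).det = 1 := by
    have := congrArg Matrix.det (rinv_mul (r := r) g)
    rwa [det_mul, hg, mul_one, det_one] at this
  have h1 : r g + r g⁻¹ = (r g).trace • (1 : M₂) := by
    have e := congrArg (fun Z => Z * r g⁻¹) (mul_self_eq (r g))
    simp only [sub_mul, smul_mul_assoc, one_mul, mul_assoc, mul_rinv, mul_one, hg, one_smul] at e
    exact eq_sub_iff_add_eq.mp e
  have h2 : r g⁻¹ = (r g).trace • (1 : M₂) - r g := eq_sub_of_add_eq' h1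
  have hpol : r g * b g + b g * r g = (r g).trace • b g + phi r b g • (1 : M₂) := by
    rw [polar, hb.trace, phi, Matrix.trace_mul_comm (r g)]
    simp
  have hA : (b g⁻¹ * (r g⁻¹ * r h)).trace =
      (r g * b g * r h).trace - (r g).trace * (b g * r h).trace := by
    rw [hb.map_inv, ad_apply, hg', one_smul, inv_inv, neg_mul, Matrix.trace_neg,
      show r g⁻¹ * b g * r g * (r g⁻¹ * r h) = r g⁻¹ * b g * (r g * r g⁻¹) * r h by
        simp only [mul_assoc], mul_rinv, mul_one, h2, sub_mul, sub_mul, smul_mul_assoc,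
      smul_mul_assoc, one_mul, Matrix.trace_sub, Matrix.trace_smul, smul_eq_mul, neg_sub]
  rw [hb.phi_mul hg, hb.phi_mul hg', hA]
  have h3 : (r g * b h * r h).trace + (r g⁻¹ * b h * r h).trace = (r g).trace * phi r b h := by
    rw [← Matrix.trace_add, ← add_mul, ← add_mul, h1, smul_mul_assoc, one_mul, smul_mul_assoc,
      Matrix.trace_smul, smul_eq_mul, phi]
  have h4 : (b g * (r g * r h)).trace + (r g * b g * r h).trace =
      (r g).trace * (b g * r h).trace + phi r b g * (r h).trace := by
    rw [← mul_assoc, ← Matrix.trace_add, ← add_mul, add_comm, hpol, add_mul, smul_mul_assoc,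
      smul_mul_assoc, one_mul, Matrix.trace_add, Matrix.trace_smul, Matrix.trace_smul,
      smul_eq_mul, smul_eq_mul]
  linear_combination h3 + h4

theorem IsCocycle.trace_pow_mul (hb : IsCocycle r b) {h : G} (hh : (r h).det = 1) {A : M₂}
    (hA : r h * A = A * r h) (n : ℕ) : (b (h ^ n) * A).trace = n * (b h * A).trace := by
  induction n with
  | zero => simp [hb.map_one]
  | succ n ih =>
    rw [pow_succ', hb.map_mul, add_mul, Matrix.trace_add, ad_apply, hh, one_smul]
    have hA' : r h⁻¹ * A = A * r h⁻¹ := by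
      calc r h⁻¹ * A = r h⁻¹ * (A * r h) * r h⁻¹ := by
            rw [mul_assoc, mul_assoc, mul_rinv, mul_one]
        _ = A * r h⁻¹ := by rw [← hA, ← mul_assoc, rinv_mul, one_mul]
    rw [mul_assoc (r h * b (h ^ n)), hA', ← mul_assoc, Matrix.trace_mul_comm, ← mul_assoc,
      ← mul_assoc, rinv_mul, one_mul, ih]
    push_cast
    ring

theorem IsCocycle.phi_conj (hb : IsCocycle r b) (g : G) {h : G} (hh : (r h).det = 1) :
    phi r b (g * h * g⁻¹) = (r g).det * phi r b h := by
  have e : b (g * h * g⁻¹) = ad r g (b h) + b g - ad r (g * h * g⁻¹) (b g) := by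
    rw [hb.map_mul, hb.map_mul, hb.map_inv, map_neg, ← ad_mul]
    abel
  have hdet : (r (g * h * g⁻¹)).det = 1 := by
    rw [_root_.map_mul, _root_.map_mul, det_mul, det_mul, hh, mul_one, ← det_mul, mul_rinv,
      det_one]
  rw [phi, e, sub_mul, add_mul, Matrix.trace_sub, Matrix.trace_add, ad_apply (g * h * g⁻¹), hdet,
    one_smul, mul_assoc (r (g * h * g⁻¹) * b g), rinv_mul, mul_one,
    Matrix.trace_mul_comm (r (g * h * g⁻¹)) (b g), add_sub_cancel_right, phi, ad_apply,
    smul_mul_assoc, Matrix.trace_smul, smul_eq_mul, _root_.map_mul, _root_.map_mul]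
  congr 1
  rw [show r g * b h * r g⁻¹ * (r g * r h * r g⁻¹) =
    r g * b h * (r g⁻¹ * r g) * r h * r g⁻¹ by simp only [mul_assoc], rinv_mul, mul_one,
    mul_assoc (r g), trace_conj]

end Fermat.Agent.CFT.TWPrimes
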